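import Fermat.Agent.Lib.Frob.H584.Induction

/-!
# FROB layer (C), final step (helper584): infinitely many primes, abstract form

From `∑_{h generates ⟨g⟩} ∑_p a h p p^{-s} = #gens * log (1/(s-1)) + O(1)` we get that the set of
primes `p` with `a h p ≠ 0` for some generator `h` of `⟨g⟩` is infinite.
-/

set_option autoImplicit false

open Filter Topology
open scoped BigOperators

namespace Fermat.Agent.Lib.Frob.H584

/-- The prime Dirichlet sum `∑_p a(p) p^{-s}` (same body as the skeleton's `primeSum`). -/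
noncomputable def pSum (a : ℕ → ℝ) (s : ℝ) : ℝ :=
  ∑' p : Nat.Primes, a p * ((p : ℕ) : ℝ) ^ (-s)

lemma pSum_def (a : ℕ → ℝ) (s : ℝ) :
    pSum a s = ∑' p : Nat.Primes, a p * ((p : ℕ) : ℝ) ^ (-s) := rfl

/-- If `a` vanishes at all primes outside a finite set, `pSum a` is bounded near `1⁺`. -/
lemma bddNear_pSum_of_finite (a : ℕ → ℝ) (E : Set ℕ) (hE : E.Finite)
    (ha : ∀ p : ℕ, p.Prime → p ∉ E → a p = 0) : BddNear (pSum a) := by
  classical
  set F : Finset Nat.Primes := (hE.preimage (f := fun p : Nat.Primes => (p : ℕ))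
    (fun x _ y _ h => Subtype.ext h)).toFinset with hF
  refine ⟨∑ p ∈ F, |a p|, ?_⟩
  have hmem : ∀ᶠ s in 𝓝[>] (1 : ℝ), s ∈ Set.Ioi (1 : ℝ) := self_mem_nhdsWithin
  filter_upwards [hmem] with s hs
  have hs0 : (0 : ℝ) ≤ s := le_trans zero_le_one (le_of_lt hs)
  have h1 : pSum a s = ∑ p ∈ F, a p * ((p : ℕ) : ℝ) ^ (-s) := by
    rw [pSum_def]
    apply tsum_eq_sum
    intro p hp
    have hpE : (p : ℕ) ∉ E := by
      intro h
      apply hp
      rw [hF, Set.Finite.mem_toFinset]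
      exact h
    rw [ha p p.2 hpE, zero_mul]
  rw [h1]
  refine (Finset.abs_sum_le_sum_abs _ _).trans (Finset.sum_le_sum fun p _ => ?_)
  rw [abs_mul]
  have hp1 : (1 : ℝ) ≤ ((p : ℕ) : ℝ) := by exact_mod_cast p.2.one_lt.le
  have h2 : ((p : ℕ) : ℝ) ^ (-s) ≤ 1 := Real.rpow_le_one_of_one_le_of_nonpos hp1 (by linarith)
  have h3 : 0 ≤ ((p : ℕ) : ℝ) ^ (-s) := Real.rpow_nonneg (by linarith) _
  rw [abs_of_nonneg h3]
  calc |a p| * ((p : ℕ) : ℝ) ^ (-s) ≤ |a p| * 1 :=
        mul_le_mul_of_nonneg_left h2 (abs_nonneg _)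
    _ = |a p| := mul_one _

/-- **Final step of layer (C), abstract.** -/
theorem infinite_primes_of_bddNear {G : Type*} [Group G] [Finite G] (a : G → ℕ → ℝ) (g : G)
    (h : BddNear (fun s => (∑ᶠ h ∈ gens g, pSum (a h) s)
      - (Nat.card (gens g) : ℝ) * Real.log (1 / (s - 1)))) :
    {p : ℕ | p.Prime ∧ ∃ h ∈ gens g, a h p ≠ 0}.Infinite := by
  classical
  intro hfin
  set E : Set ℕ := {p : ℕ | p.Prime ∧ ∃ h ∈ gens g, a h p ≠ 0} with hE
  have hb : ∀ h ∈ gens g, BddNear (pSum (a h)) := by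
    intro h hh
    refine bddNear_pSum_of_finite (a h) E hfin fun p hp hpE => ?_
    by_contra hne
    exact hpE ⟨hp, h, hh, hne⟩
  have hsum : BddNear (fun s => ∑ᶠ h ∈ gens g, pSum (a h) s) := by
    have h1 := bddNear_finset_sum (gens g).toFinite.toFinset (fun h => pSum (a h))
      (fun h hh => hb h ((Set.Finite.mem_toFinset _).mp hh))
    refine h1.congr fun s => ?_
    rw [finsum_mem_eq_finite_toFinset_sum _ (gens g).toFinite]
  have hlog : BddNear (fun s => (Nat.card (gens g) : ℝ) * Real.log (1 / (s - 1))) := by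
    refine (hsum.sub h).congr fun s => ?_
    ring
  have hcard : 0 < Nat.card (gens g) := by
    haveI : Nonempty (gens g) := ⟨⟨g, self_mem_gens g⟩⟩
    exact Nat.card_pos
  have hlog' : BddNear (fun s => Real.log (1 / (s - 1))) := by
    refine (hlog.const_mul ((Nat.card (gens g) : ℝ))⁻¹).congr fun s => ?_
    rw [← mul_assoc, inv_mul_cancel₀ (by exact_mod_cast hcard.ne'), one_mul]
  exact not_bddNear_log hlog'

end Fermat.Agent.Lib.Frob.H584
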