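import Mathlib

/-!
# FROB piece F4 (helper584): abstract inclusion–exclusion for weighted prime sums

`Q` is an index type (degree-one unramified primes `𝔮` of `K`), `w s q` a weight
(`N(𝔮)^(-s)`), `S r ⊆ Q` a finite family of subsets (`𝔮` splits completely in `F_r`), `c r`
the expected relative density of `S r` (`1 / r`) and `ell s` the comparison function
(`log (1 / (s - 1))`).

If for every subfamily `T` the sum of `w s` over `⋂ r ∈ T, S r` is `(∏ r ∈ T, c r) * ell s + O(1)`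
on `(1, 2]`, then the sum over the complement of `⋃ r ∈ R, S r` is
`(∏ r ∈ R, (1 - c r)) * ell s + O(1)`; if moreover `c r < 1`, `ell` is unbounded on `(1, 2]` and
each single weight is bounded on `(1, 2]`, the complement of `⋃ r ∈ R, S r` is infinite.
-/

set_option autoImplicit false

open scoped BigOperators
open Finset

namespace Fermat.Agent.Lib.Frob.H584

variable {ι Q : Type*}

/-- The `0/1`-valued indicator of a set. -/
noncomputable def ind (A : Set Q) (q : Q) : ℝ := A.indicator (fun _ => (1 : ℝ)) q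

lemma ind_of_mem {A : Set Q} {q : Q} (h : q ∈ A) : ind A q = 1 := by
  simp [ind, h]

lemma ind_of_notMem {A : Set Q} {q : Q} (h : q ∉ A) : ind A q = 0 := by
  simp [ind, h]

lemma ind_nonneg (A : Set Q) (q : Q) : 0 ≤ ind A q := by
  by_cases h : q ∈ A
  · rw [ind_of_mem h]; exact zero_le_one
  · rw [ind_of_notMem h]

lemma ind_le_one (A : Set Q) (q : Q) : ind A q ≤ 1 := by
  by_cases h : q ∈ A
  · rw [ind_of_mem h]
  · rw [ind_of_notMem h]; exact zero_le_one

lemma ind_mul_eq_indicator (A : Set Q) (f : Q → ℝ) (q : Q) :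
    ind A q * f q = A.indicator f q := by
  by_cases h : q ∈ A
  · rw [ind_of_mem h, one_mul, Set.indicator_of_mem h]
  · rw [ind_of_notMem h, zero_mul, Set.indicator_of_notMem h]

lemma ind_compl (A : Set Q) (q : Q) : ind Aᶜ q = 1 - ind A q := by
  by_cases h : q ∈ A
  · rw [ind_of_mem h, ind_of_notMem (by simpa using h)]; ring
  · rw [ind_of_notMem h, ind_of_mem (by simpa using h)]; ring

lemma ind_biInter (T : Finset ι) (S : ι → Set Q) (q : Q) :
    ind (⋂ r ∈ T, S r) q = ∏ r ∈ T, ind (S r) q := by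
  classical
  by_cases h : q ∈ ⋂ r ∈ T, S r
  · rw [ind_of_mem h]
    symm
    apply Finset.prod_eq_one
    intro r hr
    exact ind_of_mem (Set.mem_iInter₂.mp h r hr)
  · rw [ind_of_notMem h]
    symm
    simp only [Set.mem_iInter, not_forall] at h
    obtain ⟨r, hr, hq⟩ := h
    exact Finset.prod_eq_zero hr (ind_of_notMem hq)

/-- Pointwise inclusion–exclusion. -/
lemma ind_biInter_compl [DecidableEq ι] (R : Finset ι) (S : ι → Set Q) (q : Q) :
    ind (⋂ r ∈ R, (S r)ᶜ) q =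
      ∑ T ∈ R.powerset, (-1 : ℝ) ^ T.card * ind (⋂ r ∈ T, S r) q := by
  rw [ind_biInter]
  have h1 : ∀ r ∈ R, ind (S r)ᶜ q = -ind (S r) q + 1 := fun r _ => by rw [ind_compl]; ring
  rw [Finset.prod_congr rfl h1, Finset.prod_add]
  refine Finset.sum_congr rfl fun T _ => ?_
  rw [Finset.prod_const_one, mul_one, ind_biInter, Finset.prod_neg, ]

/-- Inclusion–exclusion for the constants. -/
lemma prod_one_sub_eq [DecidableEq ι] (R : Finset ι) (c : ι → ℝ) :
    ∏ r ∈ R, (1 - c r) = ∑ T ∈ R.powerset, (-1 : ℝ) ^ T.card * ∏ r ∈ T, c r := by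
  have h1 : ∀ r ∈ R, 1 - c r = -c r + 1 := fun r _ => by ring
  rw [Finset.prod_congr rfl h1, Finset.prod_add]
  refine Finset.sum_congr rfl fun T _ => ?_
  rw [Finset.prod_const_one, mul_one, Finset.prod_neg]

/-- **F4, quantitative form.**  If all intersections have the expected weighted size up to
`O(1)` then so has the complement of the union. -/
theorem incl_excl_bound [DecidableEq ι] (R : Finset ι) (S : ι → Set Q) (w : ℝ → Q → ℝ)
    (hsum : ∀ s ∈ Set.Ioc (1 : ℝ) 2, Summable (w s))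
    (c : ι → ℝ) (ell : ℝ → ℝ)
    (h : ∀ T ⊆ R, ∃ B : ℝ, ∀ s ∈ Set.Ioc (1 : ℝ) 2,
      |∑' q, (⋂ r ∈ T, S r).indicator (w s) q - (∏ r ∈ T, c r) * ell s| ≤ B) :
    ∃ B : ℝ, ∀ s ∈ Set.Ioc (1 : ℝ) 2,
      |∑' q, (⋂ r ∈ R, (S r)ᶜ).indicator (w s) q - (∏ r ∈ R, (1 - c r)) * ell s| ≤ B := by
  classical
  choose! B hB using h
  refine ⟨∑ T ∈ R.powerset, B T, fun s hs => ?_⟩
  have hsm : ∀ A : Set Q, Summable (A.indicator (w s)) := fun A => (hsum s hs).indicator A
  have key : ∑' q, (⋂ r ∈ R, (S r)ᶜ).indicator (w s) q =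
      ∑ T ∈ R.powerset, (-1 : ℝ) ^ T.card * ∑' q, (⋂ r ∈ T, S r).indicator (w s) q := by
    have h1 : ∀ q, (⋂ r ∈ R, (S r)ᶜ).indicator (w s) q =
        ∑ T ∈ R.powerset, (-1 : ℝ) ^ T.card * (⋂ r ∈ T, S r).indicator (w s) q := by
      intro q
      rw [← ind_mul_eq_indicator, ind_biInter_compl, Finset.sum_mul]
      refine Finset.sum_congr rfl fun T _ => ?_
      rw [mul_assoc, ind_mul_eq_indicator]
    rw [tsum_congr h1, Summable.tsum_finsetSum (fun T _ => (hsm _).mul_left _)]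
    refine Finset.sum_congr rfl fun T _ => ?_
    rw [tsum_mul_left]
  rw [key, prod_one_sub_eq, Finset.sum_mul, ← Finset.sum_sub_distrib]
  refine (Finset.abs_sum_le_sum_abs _ _).trans (Finset.sum_le_sum fun T hT => ?_)
  have := hB T (Finset.mem_powerset.mp hT) s hs
  rw [mul_assoc, ← mul_sub, abs_mul, abs_pow, abs_neg, abs_one, one_pow, one_mul]
  exact this

/-- **F4, qualitative form.**  Under the hypotheses of `incl_excl_bound`, if every `c r < 1`
`ell` is unbounded above on `(1, 2]` and each single weight is bounded on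
`(1, 2]`, then the complement of `⋃ r ∈ R, S r` is infinite. -/
theorem infinite_compl_of_incl_excl [DecidableEq ι] (R : Finset ι) (S : ι → Set Q)
    (w : ℝ → Q → ℝ)
    (hsum : ∀ s ∈ Set.Ioc (1 : ℝ) 2, Summable (w s))
    (hwb : ∀ q, ∃ b : ℝ, ∀ s ∈ Set.Ioc (1 : ℝ) 2, w s q ≤ b)
    (c : ι → ℝ) (hc : ∀ r ∈ R, c r < 1) (ell : ℝ → ℝ)
    (hell : ∀ M : ℝ, ∃ s ∈ Set.Ioc (1 : ℝ) 2, M < ell s)
    (h : ∀ T ⊆ R, ∃ B : ℝ, ∀ s ∈ Set.Ioc (1 : ℝ) 2,
      |∑' q, (⋂ r ∈ T, S r).indicator (w s) q - (∏ r ∈ T, c r) * ell s| ≤ B) :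
    (⋂ r ∈ R, (S r)ᶜ : Set Q).Infinite := by
  classical
  obtain ⟨B, hB⟩ := incl_excl_bound R S w hsum c ell h
  intro hfin
  set A : Set Q := ⋂ r ∈ R, (S r)ᶜ with hA
  set F : Finset Q := hfin.toFinset with hF
  choose b hb using hwb
  have hpos : 0 < ∏ r ∈ R, (1 - c r) :=
    Finset.prod_pos fun r hr => sub_pos.mpr (hc r hr)
  set P : ℝ := ∏ r ∈ R, (1 - c r) with hP
  obtain ⟨s, hs, hlt⟩ := hell ((B + ∑ q ∈ F, b q) / P)
  have h1 : ∑' q, A.indicator (w s) q = ∑ q ∈ F, w s q := by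
    rw [tsum_eq_sum (s := F)]
    · refine Finset.sum_congr rfl fun q hq => ?_
      rw [Set.indicator_of_mem]
      exact (hfin.mem_toFinset).mp hq
    · intro q hq
      rw [Set.indicator_of_notMem]
      intro hqA
      exact hq ((hfin.mem_toFinset).mpr hqA)
  have h2 : ∑ q ∈ F, w s q ≤ ∑ q ∈ F, b q := Finset.sum_le_sum fun q _ => hb q s hs
  have h3 := hB s hs
  rw [h1] at h3
  have h4 : P * ell s ≤ B + ∑ q ∈ F, b q := by
    have := (abs_le.mp h3).1
    linarith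
  have h5 : (B + ∑ q ∈ F, b q) / P < ell s := hlt
  rw [div_lt_iff₀ hpos] at h5
  linarith

/-- Variant: there is an element of the complement of `⋃ r ∈ R, S r` outside any given finite
set. -/
theorem exists_notMem_of_incl_excl [DecidableEq ι] (R : Finset ι) (S : ι → Set Q)
    (w : ℝ → Q → ℝ)
    (hsum : ∀ s ∈ Set.Ioc (1 : ℝ) 2, Summable (w s))
    (hwb : ∀ q, ∃ b : ℝ, ∀ s ∈ Set.Ioc (1 : ℝ) 2, w s q ≤ b)
    (c : ι → ℝ) (hc : ∀ r ∈ R, c r < 1) (ell : ℝ → ℝ)
    (hell : ∀ M : ℝ, ∃ s ∈ Set.Ioc (1 : ℝ) 2, M < ell s)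
    (h : ∀ T ⊆ R, ∃ B : ℝ, ∀ s ∈ Set.Ioc (1 : ℝ) 2,
      |∑' q, (⋂ r ∈ T, S r).indicator (w s) q - (∏ r ∈ T, c r) * ell s| ≤ B)
    (E : Set Q) (hE : E.Finite) :
    ∃ q, q ∉ E ∧ ∀ r ∈ R, q ∉ S r := by
  have hinf := infinite_compl_of_incl_excl R S w hsum hwb c hc ell hell h
  obtain ⟨q, hq, hqE⟩ := (hinf.sdiff hE).nonempty
  refine ⟨q, hqE, fun r hr => ?_⟩
  have := Set.mem_iInter₂.mp hq r hr
  exact this

end Fermat.Agent.Lib.Frob.H584
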