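import Mathlib

/-!
# FROB layer (C) (helper584): the induction over cyclic subgroups, abstract form

Abstract versions (Mathlib-only) of the statements `sum_generators_sub_log`,
`not_bddNearOne_log` and of the final "infinitely many primes" step of the skeleton
`origin/helper43:wip/Lib/Frob/Skeleton.lean`.  "Bounded near `1⁺`" is written out as
`∃ C, ∀ᶠ s in 𝓝[>] 1, |f s| ≤ C`, which is the body of the skeleton's `BddNearOne`.
-/

set_option autoImplicit false

open Filter Topology
open scoped BigOperators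

namespace Fermat.Agent.Lib.Frob.H584

/-- `f` is bounded on a right neighbourhood of `1` (same body as the skeleton's `BddNearOne`). -/
def BddNear (f : ℝ → ℝ) : Prop := ∃ C : ℝ, ∀ᶠ s in 𝓝[>] (1 : ℝ), |f s| ≤ C

lemma bddNear_iff (f : ℝ → ℝ) : BddNear f ↔ ∃ C : ℝ, ∀ᶠ s in 𝓝[>] (1 : ℝ), |f s| ≤ C := Iff.rfl

lemma BddNear.add {f g : ℝ → ℝ} (hf : BddNear f) (hg : BddNear g) :
    BddNear (fun s => f s + g s) := by
  obtain ⟨C, hC⟩ := hf
  obtain ⟨D, hD⟩ := hg
  refine ⟨C + D, ?_⟩
  filter_upwards [hC, hD] with s h1 h2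
  exact (abs_add_le _ _).trans (add_le_add h1 h2)

lemma BddNear.neg {f : ℝ → ℝ} (hf : BddNear f) : BddNear (fun s => -f s) := by
  obtain ⟨C, hC⟩ := hf
  refine ⟨C, ?_⟩
  filter_upwards [hC] with s h1
  rwa [abs_neg]

lemma BddNear.sub {f g : ℝ → ℝ} (hf : BddNear f) (hg : BddNear g) :
    BddNear (fun s => f s - g s) := by
  have := hf.add hg.neg
  simpa [sub_eq_add_neg] using this

lemma BddNear.const_mul {f : ℝ → ℝ} (hf : BddNear f) (c : ℝ) : BddNear (fun s => c * f s) := by
  obtain ⟨C, hC⟩ := hf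
  refine ⟨|c| * C, ?_⟩
  filter_upwards [hC] with s h1
  rw [abs_mul]
  exact mul_le_mul_of_nonneg_left h1 (abs_nonneg c)

lemma BddNear.congr {f g : ℝ → ℝ} (hf : BddNear f) (h : ∀ s, f s = g s) : BddNear g := by
  have : f = g := funext h
  rwa [← this]

lemma bddNear_zero : BddNear (fun _ => (0 : ℝ)) :=
  ⟨0, Filter.Eventually.of_forall fun _ => by simp⟩

lemma bddNear_finset_sum {α : Type*} (F : Finset α) (f : α → ℝ → ℝ)
    (h : ∀ a ∈ F, BddNear (f a)) : BddNear (fun s => ∑ a ∈ F, f a s) := by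
  classical
  induction F using Finset.induction_on with
  | empty => simpa using bddNear_zero
  | insert a F ha ih =>
    have h1 : BddNear (f a) := h a (Finset.mem_insert_self a F)
    have h2 : BddNear (fun s => ∑ b ∈ F, f b s) :=
      ih fun b hb => h b (Finset.mem_insert_of_mem hb)
    refine (h1.add h2).congr fun s => ?_
    rw [Finset.sum_insert ha]

/-- `log (1/(s-1))` is not bounded near `1⁺`. -/
theorem not_bddNear_log : ¬ BddNear (fun s => Real.log (1 / (s - 1))) := by
  rintro ⟨C, hC⟩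
  -- take `s = 1 + exp (-(|C| + 1)) / k` small
  have hmem : ∀ᶠ s in 𝓝[>] (1 : ℝ), s ∈ Set.Ioo (1 : ℝ) (1 + Real.exp (-(|C| + 1))) := by
    apply Ioo_mem_nhdsGT
    have := Real.exp_pos (-(|C| + 1))
    linarith
  obtain ⟨s, ⟨hs1, hs2⟩, hsC⟩ := (hmem.and hC).exists
  have hpos : 0 < s - 1 := by linarith
  have hlt : s - 1 < Real.exp (-(|C| + 1)) := by linarith
  have h1 : Real.log (s - 1) < -(|C| + 1) := by
    have := Real.log_lt_log hpos hlt
    rwa [Real.log_exp] at this
  have h2 : Real.log (1 / (s - 1)) = -Real.log (s - 1) := by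
    rw [one_div, Real.log_inv]
  have hsC' : |Real.log (1 / (s - 1))| ≤ C := hsC
  rw [h2] at hsC'
  have h3 : |C| + 1 < -Real.log (s - 1) := by linarith
  have h4 : -Real.log (s - 1) ≤ C := (le_abs_self _).trans hsC'
  have h5 : C ≤ |C| := le_abs_self C
  linarith

section Induction

variable {G : Type*} [Group G]

/-- The elements generating the same cyclic subgroup as `g`. -/
def gens (g : G) : Set G := {h | Subgroup.zpowers h = Subgroup.zpowers g}

lemma mem_gens {g h : G} : h ∈ gens g ↔ Subgroup.zpowers h = Subgroup.zpowers g := Iff.rfl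

lemma self_mem_gens (g : G) : g ∈ gens g := rfl

lemma gens_subset_zpowers (g : G) : gens g ⊆ (Subgroup.zpowers g : Set G) := by
  intro h hh
  have : h ∈ Subgroup.zpowers h := Subgroup.mem_zpowers h
  rw [mem_gens.mp hh] at this
  exact this

/-- **Layer (C), abstract.**  If for every subgroup `H` the sum of the `Φ h` over `h ∈ H` is
`|H| * ell + O(1)` near `1⁺`, then for every `g` the sum of the `Φ h` over the generators `h` of
`⟨g⟩` is `#{generators} * ell + O(1)`. -/
theorem bddNear_sum_gens [Finite G] (Φ : G → ℝ → ℝ) (ell : ℝ → ℝ)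
    (hH : ∀ H : Subgroup G,
      BddNear (fun s => (∑ᶠ h ∈ (H : Set G), Φ h s) - (Nat.card H : ℝ) * ell s))
    (g : G) :
    BddNear (fun s => (∑ᶠ h ∈ gens g, Φ h s) - (Nat.card (gens g) : ℝ) * ell s) := by
  classical
  -- strong induction on the order of `⟨g⟩`
  induction' hn : Nat.card (Subgroup.zpowers g) using Nat.strong_induction_on with n ih generalizing g
  subst hn
  -- rewrite everything with `Finset`s
  have hfin : ∀ (A : Set G) (s : ℝ), (∑ᶠ h ∈ A, Φ h s) = ∑ h ∈ A.toFinite.toFinset, Φ h s := by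
    intro A s
    rw [finsum_mem_eq_finite_toFinset_sum _ A.toFinite]
  have hcard : ∀ A : Set G, Nat.card A = A.toFinite.toFinset.card := by
    intro A
    rw [_root_.Nat.card_coe_set_eq, Set.ncard_eq_toFinset_card A A.toFinite]
  set Z : Finset G := (Subgroup.zpowers g : Set G).toFinite.toFinset with hZ
  set Γ : Finset G := (gens g).toFinite.toFinset with hΓ
  have hΓZ : Γ ⊆ Z := by
    intro h hh
    rw [hΓ, Set.Finite.mem_toFinset] at hh
    rw [hZ, Set.Finite.mem_toFinset]
    exact gens_subset_zpowers g hh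
  -- elements of `Z \ Γ` generate strictly smaller subgroups
  have hsmall : ∀ h ∈ Z \ Γ, Nat.card (Subgroup.zpowers h) < Nat.card (Subgroup.zpowers g) := by
    intro h hh
    rw [Finset.mem_sdiff, hZ, hΓ, Set.Finite.mem_toFinset, Set.Finite.mem_toFinset] at hh
    obtain ⟨h1, h2⟩ := hh
    have hle : Subgroup.zpowers h ≤ Subgroup.zpowers g := by
      rw [Subgroup.zpowers_le]; exact h1
    have hne : Subgroup.zpowers h ≠ Subgroup.zpowers g := h2
    have hlt : Subgroup.zpowers h < Subgroup.zpowers g := lt_of_le_of_ne hle hne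
    have hss : (Subgroup.zpowers h : Set G) ⊂ (Subgroup.zpowers g : Set G) := by
      exact_mod_cast hlt
    have := Set.ncard_lt_ncard hss (Set.toFinite _)
    rwa [← _root_.Nat.card_coe_set_eq, ← _root_.Nat.card_coe_set_eq] at this
  -- the classes of `Z \ Γ` under "generate the same subgroup"
  -- `Z \ Γ = ⨆ over subgroups K generated by an element of Z \ Γ` of `gens`
  set 𝒦 : Finset (Subgroup G) := (Z \ Γ).image Subgroup.zpowers with h𝒦
  have hfib : ∀ K ∈ 𝒦, ∃ k, k ∈ Z \ Γ ∧ Subgroup.zpowers k = K := by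
    intro K hK
    rw [h𝒦, Finset.mem_image] at hK
    exact hK
  choose! rep hrep1 hrep2 using hfib
  have hfilter : ∀ K ∈ 𝒦, (Z \ Γ).filter (fun h => Subgroup.zpowers h = K) =
      (gens (rep K)).toFinite.toFinset := by
    intro K hK
    ext h
    rw [Finset.mem_filter, Set.Finite.mem_toFinset, mem_gens, hrep2 K hK]
    constructor
    · exact fun hh => hh.2
    · intro hh
      refine ⟨?_, hh⟩
      have hk := hrep1 K hK
      rw [Finset.mem_sdiff, hZ, hΓ, Set.Finite.mem_toFinset, Set.Finite.mem_toFinset] at hk ⊢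
      obtain ⟨hk1, hk2⟩ := hk
      have hKle : K ≤ Subgroup.zpowers g := by
        rw [← hrep2 K hK, Subgroup.zpowers_le]; exact hk1
      have hKne : K ≠ Subgroup.zpowers g := by
        rw [← hrep2 K hK]; exact hk2
      constructor
      · have : h ∈ Subgroup.zpowers h := Subgroup.mem_zpowers h
        rw [hh] at this
        exact hKle this
      · rw [mem_gens, hh]
        exact hKne
  -- the sum over `Z \ Γ` splits along `𝒦`
  have hsplit : ∀ F : G → ℝ, ∑ h ∈ Z \ Γ, F h =
      ∑ K ∈ 𝒦, ∑ h ∈ (gens (rep K)).toFinite.toFinset, F h := by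
    intro F
    rw [h𝒦, ← Finset.sum_fiberwise_of_maps_to (g := Subgroup.zpowers) (t := (Z \ Γ).image
      Subgroup.zpowers) (fun h hh => Finset.mem_image_of_mem _ hh)]
    refine Finset.sum_congr rfl fun K hK => ?_
    rw [← hfilter K (by rw [h𝒦]; exact hK)]
  -- induction hypothesis for each class
  have hIH : ∀ K ∈ 𝒦, BddNear (fun s => (∑ h ∈ (gens (rep K)).toFinite.toFinset, Φ h s)
      - ((gens (rep K)).toFinite.toFinset.card : ℝ) * ell s) := by
    intro K hK
    have := ih _ (hsmall _ (hrep1 K hK)) (rep K) rfl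
    refine this.congr fun s => ?_
    rw [hfin, hcard]
  have hsumIH := bddNear_finset_sum 𝒦 _ hIH
  -- hypothesis for `H = ⟨g⟩`
  have hZb : BddNear (fun s => (∑ h ∈ Z, Φ h s) - (Z.card : ℝ) * ell s) := by
    refine (hH (Subgroup.zpowers g)).congr fun s => ?_
    rw [hfin]
    congr 2
    have := hcard (Subgroup.zpowers g : Set G)
    exact_mod_cast this
  -- combine
  have hfinal := hZb.sub hsumIH
  refine hfinal.congr fun s => ?_
  rw [hfin, hcard]
  have e1 : ∑ h ∈ Z, Φ h s = ∑ h ∈ Γ, Φ h s + ∑ h ∈ Z \ Γ, Φ h s := by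
    rw [add_comm, Finset.sum_sdiff hΓZ]
  have e2 : (Z.card : ℝ) = Γ.card + (Z \ Γ).card := by
    rw [← Nat.cast_add, add_comm, Finset.card_sdiff_add_card_eq_card hΓZ]
  have e3 : ((Z \ Γ).card : ℝ) = ∑ K ∈ 𝒦, ((gens (rep K)).toFinite.toFinset.card : ℝ) := by
    have := hsplit (fun _ => (1 : ℝ))
    simpa using this
  rw [e1, e2, hsplit (fun h => Φ h s), e3, Finset.sum_sub_distrib, ← Finset.sum_mul]
  ring

end Induction

end Fermat.Agent.Lib.Frob.H584
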